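/-
S55 / block UNITS-T1 : definitions for the proof of (T1) `H^3_S(μ_F) = 0`.

* `torsCard p M`, `modCard p M` : `|M[p]|` and `|M / pM|`;
* `nPl S X` : the number of places over `S` of the "field" attached to the `GQ`-set `X`, counted as
  the number of orbits of the local Galois groups `Gv q`, `q ∈ S`, on `X`;
* `locE S X q n : H^n_S(E_X) → H^n_q(K_X)`, `invX L X : H^2_q(K_X) → ℚ/ℤ`;
* `U4Pkg S L X` : what T1 consumes from (U4);
* `UnitInput S p X` : what T1 consumes from UNITS-CL.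
Only definitions.
-/
import Fermat.Agent.S55.Arith.LocInterface

set_option autoImplicit false

namespace Fermat.Agent.S55

/-- `|M[p]|`. -/
noncomputable def torsCard (p : ℕ) (M : Type) [AddCommGroup M] : ℕ :=
  Nat.card (nsmulAddMonoidHom (α := M) p).ker

/-- `|M / pM|`. -/
noncomputable def modCard (p : ℕ) (M : Type) [AddCommGroup M] : ℕ :=
  (nsmulAddMonoidHom (α := M) p).range.index

/-- The orbits of the local Galois group at `q` on a `GQ`-set `X`. -/
abbrev LocOrb (q : Nat.Primes) (X : Type) [MulAction GQ X] : Type :=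
  MulAction.orbitRel.Quotient (Gv q) (ResSet (ιv q) X)

/-- The number of "places over `S`" of the `GQ`-set `X`. -/
noncomputable def nPl (S : Finset Nat.Primes) (X : Type) [MulAction GQ X] : ℕ :=
  ∑ q ∈ S, Nat.card (LocOrb q X)

/-- `H^n_S(E_X) → H^n_q(K_X)`. -/
noncomputable def locE (S : Finset Nat.Primes) (X : Type) [MulAction GQ X] (q : Nat.Primes)
    (n : ℕ) : Hsm (lvlS S) (IndMod X (ESx S)) n →+ Hloc q (IndMod X Kx) n :=
  (Hsm.map (ResMod.map (ιv q) (IndMod.mapCoeff X (ESsub S).inclG)) n).comp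
    (locS S (IndMod X (ESx S)) q n)

/-- `inv_{q,X} = inv_q ∘ (sum over X)_*` on `H^2_q(K_X)`. -/
noncomputable def invX {p : ℕ} {q : Nat.Primes} (L : LocPkg p q) (X : Type) [MulAction GQ X]
    [Finite X] : Hloc q (IndMod X Kx) 2 →+ QZ :=
  L.inv.comp (Hsm.map (ResMod.map (ιv q) (IndMod.sum X Kx)) 2)

/-- (U4) on `p`-primary parts: `H^2_S(E_X)(p) → ⨁_{q ∈ S} H^2_q(K_X)(p)` is injective with image
the kernel of the sum of the invariants. -/
structure U4Pkg (S : Finset Nat.Primes) {p : ℕ} (L : ∀ q, LocPkg p q) (X : Type) [MulAction GQ X]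
    [Finite X] : Prop where
  inj : ∀ x ∈ pPrimary p (Hsm (lvlS S) (IndMod X (ESx S)) 2),
    (∀ q : ↥S, locE S X q.1 2 x = 0) → x = 0
  recip : ∀ x ∈ pPrimary p (Hsm (lvlS S) (IndMod X (ESx S)) 2),
    ∑ q : ↥S, invX (L q.1) X (locE S X q.1 2 x) = 0
  exist : ∀ y : (∀ q : ↥S, Hloc q.1 (IndMod X Kx) 2), (∀ q, y q ∈ pPrimary p _) →
    ∑ q : ↥S, invX (L q.1) X (y q) = 0 →
    ∃ x ∈ pPrimary p (Hsm (lvlS S) (IndMod X (ESx S)) 2), ∀ q : ↥S, locE S X q.1 2 x = y q

/-- What T1 consumes from UNITS-CL (Dirichlet's `S`-unit theorem and finiteness of the `S`-class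
group) for the `GQ`-set `X = GQ ⧸ U`. -/
structure UnitInput (S : Finset Nat.Primes) (p : ℕ) (X : Type) [MulAction GQ X] : Prop where
  /-- `|H^0_S(E_X)/p|^2 = p^(|X| + 2 #S_F)`  (`r_2 = |X|/2`) -/
  h0 : modCard p (Hsm (lvlS S) (IndMod X (ESx S)) 0) ^ 2 = p ^ (Nat.card X + 2 * nPl S X)
  /-- `H^1_S(E_X)` is finite -/
  h1 : Finite (Hsm (lvlS S) (IndMod X (ESx S)) 1)

end Fermat.Agent.S55
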