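/-
S55 / block UNITS-T1, section T1-B (abstract COH): the Kummer count and `H^0` of a coset module.
-/
import Fermat.Agent.S55.Units.T1.Defs
import Fermat.Agent.S55.Coh.LESExact
import Fermat.Agent.S55.Coh.H0

set_option autoImplicit false

namespace Fermat.Agent.S55

/-- The middle term of `M →p M →δ N →i M' →p M'`. -/
private theorem T1_card_middle {M N M' : Type} [AddCommGroup M] [AddCommGroup N]
    [AddCommGroup M'] (p : ℕ) (δ : M →+ N) (i : N →+ M')
    (h1 : ∀ m, δ m = 0 ↔ ∃ m₀, p • m₀ = m) (h2 : ∀ n, i n = 0 ↔ ∃ m, δ m = n)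
    (h3 : ∀ m', p • m' = 0 ↔ ∃ n, i n = m') :
    Nat.card N = modCard p M * torsCard p M' := by
  have e1 : i.ker = δ.range := by
    ext n
    rw [AddMonoidHom.mem_ker, AddMonoidHom.mem_range]
    exact h2 n
  have e2 : δ.ker = (nsmulAddMonoidHom (α := M) p).range := by
    ext m
    rw [AddMonoidHom.mem_ker, AddMonoidHom.mem_range]
    exact h1 m
  have e3 : i.range = (nsmulAddMonoidHom (α := M') p).ker := by
    ext m'
    rw [AddMonoidHom.mem_ker, AddMonoidHom.mem_range]
    exact (h3 m').symm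
  rw [← AddSubgroup.card_mul_index i.ker, AddSubgroup.index_ker, e3, e1, ← AddSubgroup.index_ker,
    e2]
  rfl

section B

variable {G : Type} [Group G] {𝓝 : LevelSys G}

/-- B1: the Kummer count. -/
theorem Hsm.card_succ_of_kummer {A B : Type} [AddCommGroup A] [DistribMulAction G A]
    [AddCommGroup B] [DistribMulAction G B] [Smooth 𝓝 B] {φ : A →+[G] B} {ψ : B →+[G] B}
    (h : ShortExact φ ψ) (p : ℕ) (hψ : ∀ b, ψ b = p • b) (n : ℕ) :
    Nat.card (Hsm 𝓝 A (n + 1)) = modCard p (Hsm 𝓝 B n) * torsCard p (Hsm 𝓝 B (n + 1)) := by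
  refine T1_card_middle p (Hsm.delta h n) (Hsm.map φ (n + 1)) ?_ ?_ ?_
  · intro m
    rw [Hsm.exact_map_delta h n m]
    constructor
    · rintro ⟨m₀, rfl⟩
      exact ⟨m₀, (Hsm.map_nsmul' p hψ n m₀).symm⟩
    · rintro ⟨m₀, rfl⟩
      exact ⟨m₀, Hsm.map_nsmul' p hψ n m₀⟩
  · intro x
    rw [Hsm.exact_delta_map h n x]
    rfl
  · intro m'
    rw [← Hsm.map_nsmul' p hψ (n + 1) m', Hsm.exact_map_map h (n + 1) m']
    rfl

/-- B2: `H^0(Map(G/U, A)) = A` if `U` acts trivially on `A`. -/
theorem Hsm.card_zero_coset (U : Subgroup G) (A : Type) [AddCommGroup A] [DistribMulAction G A]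
    (hU : ∀ u ∈ U, ∀ a : A, u • a = a) :
    Nat.card (Hsm 𝓝 (IndMod (G ⧸ U) A) 0) = Nat.card A := by
  rw [Nat.card_congr (Hsm.H0equiv (𝓝 := 𝓝) (A := IndMod (G ⧸ U) A)).toEquiv]
  refine Nat.card_congr (Equiv.ofBijective
    (fun F : inv0 G (IndMod (G ⧸ U) A) => (F : IndMod (G ⧸ U) A) ((1 : G) : G ⧸ U)) ⟨?_, ?_⟩)
  · intro F F' hFF
    apply Subtype.ext
    ext x
    induction x using QuotientGroup.induction_on with
    | H g =>
      have key : ∀ E : inv0 G (IndMod (G ⧸ U) A),
          (E : IndMod (G ⧸ U) A) (g : G ⧸ U) = g • (E : IndMod (G ⧸ U) A) ((1 : G) : G ⧸ U) := by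
        intro E
        have h1 := DFunLike.congr_fun (E.2 g) (g : G ⧸ U)
        rw [IndMod.smul_apply] at h1
        rw [← h1]
        congr 2
        rw [MulAction.Quotient.smul_coe, smul_eq_mul, inv_mul_cancel]
      rw [key F, key F']
      exact congrArg (g • ·) hFF
  · intro a
    let F : IndMod (G ⧸ U) A := IndMod.of (fun x => Quotient.liftOn' x (fun g => g • a) (by
      intro g g' hgg
      rw [QuotientGroup.leftRel_apply] at hgg
      have := hU _ hgg a
      show g • a = g' • a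
      conv_lhs => rw [← this, smul_smul, mul_inv_cancel_left]))
    have hF : ∀ g : G, g • F = F := by
      intro g
      ext x
      induction x using QuotientGroup.induction_on with
      | H k =>
        rw [IndMod.smul_apply, MulAction.Quotient.smul_coe, smul_eq_mul]
        show g • ((g⁻¹ * k) • a) = k • a
        rw [smul_smul, mul_inv_cancel_left]
    refine ⟨⟨F, hF⟩, ?_⟩
    show (1 : G) • a = a
    rw [one_smul]

end B

end Fermat.Agent.S55
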