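/-
S55 / block UNITS-T1, section T1-A (A1, A2, A2', A3): pure counting lemmas.  Owner: helper183.
-/
import Fermat.Agent.S55.Units.T1.Defs

set_option autoImplicit false

namespace Fermat.Agent.S55

/-- A1: the middle term of `M →p M →δ N →i M' →p M'`. -/
theorem card_eq_modCard_mul_torsCard {M N M' : Type} [AddCommGroup M] [AddCommGroup N]
    [AddCommGroup M'] (p : ℕ) (δ : M →+ N) (i : N →+ M')
    (h1 : ∀ m, δ m = 0 ↔ ∃ m₀, p • m₀ = m) (h2 : ∀ n, i n = 0 ↔ ∃ m, δ m = n)
    (h3 : ∀ m', p • m' = 0 ↔ ∃ n, i n = m') :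
    Nat.card N = modCard p M * torsCard p M' := by
  have e1 : i.ker = δ.range := by
    ext n
    rw [AddMonoidHom.mem_ker, AddMonoidHom.mem_range]
    exact h2 n
  have e2 : δ.ker = (nsmulAddMonoidHom (α := M) p).range := by
    ext m
    rw [AddMonoidHom.mem_ker, AddMonoidHom.mem_range]
    exact h1 m
  have e3 : i.range = (nsmulAddMonoidHom (α := M') p).ker := by
    ext m
    rw [AddMonoidHom.mem_ker, AddMonoidHom.mem_range]
    exact (h3 m).symm
  rw [← AddSubgroup.card_mul_index i.ker, AddSubgroup.index_ker, e3, e1, ← AddSubgroup.index_ker, e2]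
  rfl

/-- A2. -/
theorem torsCard_eq_modCard (p : ℕ) (M : Type) [AddCommGroup M] [Finite M] :
    torsCard p M = modCard p M := by
  have a := AddSubgroup.card_mul_index (nsmulAddMonoidHom (α := M) p).ker
  have b := AddSubgroup.card_mul_index (nsmulAddMonoidHom (α := M) p).range
  rw [AddSubgroup.index_ker] at a
  have hpos : 0 < Nat.card (nsmulAddMonoidHom (α := M) p).range := Nat.card_pos
  unfold torsCard modCard
  have : Nat.card (nsmulAddMonoidHom (α := M) p).ker * Nat.card (nsmulAddMonoidHom (α := M) p).range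
      = (nsmulAddMonoidHom (α := M) p).range.index * Nat.card (nsmulAddMonoidHom (α := M) p).range := by
    rw [a, ← b, mul_comm]
  exact Nat.eq_of_mul_eq_mul_right hpos this

/-- A2'. -/
theorem modCard_ne_zero (p : ℕ) (M : Type) [AddCommGroup M] [Finite M] : modCard p M ≠ 0 :=
  AddSubgroup.index_ne_zero_of_finite

private theorem T1_zmodToQZ_intCast (p : ℕ) (n : ℤ) :
    zmodToQZ p (n : ZMod p) = QZ.mk ((n : ℚ) / p) := by
  unfold zmodToQZ
  rw [ZMod.lift_coe]
  change (zmultiplesHom QZ) (QZ.mk (1 / (p : ℚ))) n = _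
  rw [zmultiplesHom_apply, ← map_zsmul]
  congr 1
  rw [zsmul_eq_mul]
  ring

private theorem T1_QZ_mk_eq_zero_iff (r : ℚ) : QZ.mk r = 0 ↔ ∃ m : ℤ, (m : ℚ) = r := by
  unfold QZ.mk
  rw [QuotientAddGroup.mk'_apply, QuotientAddGroup.eq_zero_iff, AddMonoidHom.mem_range]
  rfl

/-- A3: `(ℚ/ℤ)[p]` has order `p`. -/
theorem torsCard_QZ (p : ℕ) (hp : 0 < p) : torsCard p QZ = p := by
  have hpQ : (p : ℚ) ≠ 0 := by exact_mod_cast hp.ne'
  have hmem : ∀ c : ZMod p, zmodToQZ p c ∈ (nsmulAddMonoidHom (α := QZ) p).ker := by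
    intro c
    rw [AddMonoidHom.mem_ker, nsmulAddMonoidHom_apply, ← map_nsmul]
    have : p • c = 0 := by rw [nsmul_eq_mul, ZMod.natCast_self, zero_mul]
    rw [this, map_zero]
  let g : ZMod p → (nsmulAddMonoidHom (α := QZ) p).ker := fun c => ⟨zmodToQZ p c, hmem c⟩
  have hg : Function.Bijective g := by
    constructor
    · intro a b hab
      have h1 : zmodToQZ p a = zmodToQZ p b := congrArg Subtype.val hab
      have h2 : zmodToQZ p (a - b) = 0 := by rw [map_sub, h1, sub_self]
      obtain ⟨n, hn⟩ := ZMod.intCast_surjective (a - b)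
      rw [← hn, T1_zmodToQZ_intCast, T1_QZ_mk_eq_zero_iff] at h2
      obtain ⟨m, hm⟩ := h2
      have h3 : (n : ℚ) = ((m * p : ℤ) : ℚ) := by
        rw [eq_div_iff hpQ] at hm
        push_cast
        exact hm.symm
      have h4 : n = m * p := by exact_mod_cast h3
      have h5 : (n : ZMod p) = 0 := by
        rw [h4]; push_cast; rw [ZMod.natCast_self, mul_zero]
      rw [h5] at hn
      exact sub_eq_zero.mp hn.symm
    · rintro ⟨x, hx⟩
      obtain ⟨r, rfl⟩ := QuotientAddGroup.mk'_surjective _ x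
      rw [AddMonoidHom.mem_ker, nsmulAddMonoidHom_apply] at hx
      have hx' : QZ.mk (p • r) = 0 := by
        rw [map_nsmul]; exact hx
      rw [T1_QZ_mk_eq_zero_iff] at hx'
      obtain ⟨m, hm⟩ := hx'
      refine ⟨(m : ZMod p), Subtype.ext ?_⟩
      change zmodToQZ p (m : ZMod p) = _
      rw [T1_zmodToQZ_intCast, hm, nsmul_eq_mul, mul_div_cancel_left₀ _ hpQ]
      rfl
  unfold torsCard
  rw [← Nat.card_congr (Equiv.ofBijective g hg), Nat.card_zmod]

end Fermat.Agent.S55
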