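/-
S55 / block UNITS-T1, section T1-C (helper72): orbit decomposition of `H^n_q(K_X)`.
-/
import Fermat.Agent.S55.Units.T1.Defs
import Fermat.Agent.S55.Coh.IndProd
import Fermat.Agent.S55.Coh.IndApi

set_option autoImplicit false

namespace Fermat.Agent.S55

section C

variable (q : Nat.Primes) (X : Type) [MulAction GQ X]

/-- The component of a class of `H^n_q(K_X)` at a local orbit. -/
noncomputable def locDecomp (n : ℕ) (ω : LocOrb q X) : Hloc q (IndMod X Kx) n →+ HKY q ω.orbit n :=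
  (Hsm.map (IndMod.pull (KL q) (orbitIncl ω)) n).comp (Hsm.map (IndMod.toResSet (ιv q) X Kx) n)

/-- C1. -/
theorem locDecomp_bijective [Finite X] (n : ℕ) :
    Function.Bijective (fun (y : Hloc q (IndMod X Kx) n) (ω : LocOrb q X) => locDecomp q X n ω y) := by
  have hfin : Finite (LocOrb q X) := Quotient.finite _
  let e := Hsm.mapEquiv (𝓝 := lvlLoc q) (IndMod.toResSet (ιv q) X Kx) (IndMod.ofResSet (ιv q) X Kx)
    (IndMod.ofResSet_toResSet (ιv q) X Kx) (IndMod.toResSet_ofResSet (ιv q) X Kx) n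
  have hP := isPartition_orbits (G := Gv q) (ResSet (ιv q) X)
  constructor
  · intro y y' h
    have h0 : e (y - y') = 0 := by
      refine hP.hsm_ext (𝓝 := lvlLoc q) (A := KL q) n _ fun ω => ?_
      have hω := congrFun h ω
      have h1 : locDecomp q X n ω (y - y') = 0 := by
        rw [map_sub, sub_eq_zero]
        exact hω
      exact h1
    have h2 : y - y' = 0 := by
      rw [← map_zero e] at h0
      exact e.injective h0
    exact sub_eq_zero.1 h2
  · intro x
    obtain ⟨y, hy⟩ := hP.hsm_exists (𝓝 := lvlLoc q) (A := KL q) n x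
    refine ⟨e.symm y, funext fun ω => ?_⟩
    show Hsm.map (IndMod.pull (KL q) (orbitIncl ω)) n (e (e.symm y)) = x ω
    rw [AddEquiv.apply_symm_apply]
    exact hy ω

/-- the sum over `X` is the sum over `ResSet (ιv q) X` -/
private theorem T1_sum_toResSet [Finite X] (F : ResMod (ιv q) (IndMod X Kx)) :
    ResMod.map (ιv q) (IndMod.sum X Kx) F =
      IndMod.sum (G := Gv q) (ResSet (ιv q) X) (KL q) (IndMod.toResSet (ιv q) X Kx F) := by
  show ResMod.toRes (ιv q) (∑ᶠ x : X, ((ResMod.toRes (ιv q)).symm F) x) =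
    ∑ᶠ x : ResSet (ιv q) X, ResMod.toRes (ιv q) (((ResMod.toRes (ιv q)).symm F) x.val)
  rw [← finsum_comp_equiv (ResSet.equiv (ιv q) (X := X))]
  exact AddMonoidHom.map_finsum (f := fun x : X => ((ResMod.toRes (ιv q)).symm F) x)
    (ResMod.toRes (ιv q)).toAddMonoidHom (Set.toFinite _)

/-- C2. -/
theorem invX_eq_sum {p : ℕ} [Finite X] [Fintype (LocOrb q X)] (L : LocPkg p q)
    (y : Hloc q (IndMod X Kx) 2) :
    invX L X y = ∑ ω : LocOrb q X, invY q ω.orbit L.inv (locDecomp q X 2 ω y) := by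
  have hP := isPartition_orbits (G := Gv q) (ResSet (ιv q) X)
  have hfinp : ∀ ω : LocOrb q X, Finite ω.orbit := hP.finite_piece
  have key := Hsm.map_sum' (𝓝 := lvlLoc q) (Finset.univ : Finset (LocOrb q X))
    (fun ω => ((IndMod.sum ω.orbit (KL q)).comp (IndMod.pull (KL q) (orbitIncl ω))).comp
      (IndMod.toResSet (ιv q) X Kx))
    (χ := ResMod.map (ιv q) (IndMod.sum X Kx)) (fun F => by
      rw [T1_sum_toResSet]
      conv_lhs => rw [hP.sum_push_pull (A := KL q) (IndMod.toResSet (ιv q) X Kx F)]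
      rw [map_sum]
      refine Finset.sum_congr rfl fun ω _ => ?_
      rw [IndMod.sum_push]
      rfl) 2 y
  show L.inv (Hsm.map (ResMod.map (ιv q) (IndMod.sum X Kx)) 2 y) = _
  rw [key, map_sum]
  refine Finset.sum_congr rfl fun ω _ => ?_
  rw [Hsm.map_comp, Hsm.map_comp]
  rfl

/-- C3. -/
instance instSmoothSetOrbit [SmoothSet lvlAll X] (ω : LocOrb q X) :
    SmoothSet (lvlLoc q) ω.orbit where
  exists_fix x := by
    obtain ⟨N, hN, h⟩ := SmoothSet.exists_fix (𝓝 := lvlLoc q) (x : ResSet (ιv q) X)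
    exact ⟨N, hN, fun n hn => Subtype.ext (h n hn)⟩

end C

end Fermat.Agent.S55
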