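/-
S55 / block UNITS-T1, section T1-A (A4): the kernel of the sum of the invariants on the `p`-torsion.
Owner: helper183.
-/
import Fermat.Agent.S55.Units.T1.AbsCount

set_option autoImplicit false

namespace Fermat.Agent.S55

/-- the sum map `(I → T) →+ T` -/
private def T1_sumHom (I : Type) [Fintype I] (T : Type) [AddCommGroup T] : (I → T) →+ T where
  toFun t := ∑ i, t i
  map_zero' := by simp
  map_add' a b := by simp [Finset.sum_add_distrib]

private theorem T1_card_ker_sumHom (I : Type) [Fintype I] [Nonempty I] (T : Type) [AddCommGroup T]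
    [Finite T] : Nat.card (T1_sumHom I T).ker * Nat.card T = Nat.card T ^ Fintype.card I := by
  classical
  have hs : Function.Surjective (T1_sumHom I T) := by
    intro t
    obtain ⟨i0⟩ := ‹Nonempty I›
    refine ⟨Pi.single i0 t, ?_⟩
    change ∑ i, (Pi.single i0 t : I → T) i = t
    rw [Finset.sum_pi_single']
    simp
  have h := AddSubgroup.card_mul_index (T1_sumHom I T).ker
  rw [AddSubgroup.index_ker, AddMonoidHom.range_eq_top.2 hs, Nat.card_pi] at h
  rw [Nat.card_congr (AddSubgroup.topEquiv (G := T)).toEquiv] at h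
  rw [h]
  simp

/-- A4: the kernel of the sum of the invariants on the `p`-torsion. -/
theorem card_ker_sum_inv {p : ℕ} (hp : p.Prime) {I : Type} [Fintype I] [Nonempty I]
    (V : I → Type) [∀ i, AddCommGroup (V i)] (f : ∀ i, V i →+ QZ)
    (hinj : ∀ i, ∀ v ∈ pPrimary p (V i), f i v = 0 → v = 0)
    (hsurj : ∀ i, ∀ c ∈ pPrimary p QZ, ∃ v ∈ pPrimary p (V i), f i v = c) :
    Nat.card {v : ∀ i, V i // (∀ i, p • v i = 0) ∧ ∑ i, f i (v i) = 0} =
      p ^ (Fintype.card I - 1) := by
  classical
  set T := (nsmulAddMonoidHom (α := QZ) p).ker with hT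
  have hcardT : Nat.card T = p := torsCard_QZ p hp.pos
  have : Finite T := Nat.finite_of_card_ne_zero (by rw [hcardT]; exact hp.ne_zero)
  have hmemT : ∀ c : QZ, c ∈ T ↔ p • c = 0 := fun c => by
    rw [hT, AddMonoidHom.mem_ker, nsmulAddMonoidHom_apply]
  have hprim : ∀ (M : Type) [AddCommGroup M] (x : M), p • x = 0 → x ∈ pPrimary p M :=
    fun M _ x hx => ⟨1, by rw [pow_one]; exact hx⟩
  let Φ : {v : ∀ i, V i // (∀ i, p • v i = 0) ∧ ∑ i, f i (v i) = 0} → (T1_sumHom I T).ker :=
    fun v => ⟨fun i => ⟨f i (v.1 i), (hmemT _).2 (by rw [← map_nsmul, v.2.1 i, map_zero])⟩, by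
      rw [AddMonoidHom.mem_ker]
      apply Subtype.ext
      change ((∑ i, (⟨f i (v.1 i), _⟩ : T) : T) : QZ) = 0
      rw [AddSubgroup.val_finsetSum]
      exact v.2.2⟩
  have hΦ : Function.Bijective Φ := by
    constructor
    · intro v w hvw
      apply Subtype.ext
      funext i
      have h1 : f i (v.1 i) = f i (w.1 i) :=
        congrArg (fun t : (T1_sumHom I T).ker => ((t.1 i : T) : QZ)) hvw
      have h2 : v.1 i - w.1 i = 0 := by
        apply hinj i _ (hprim _ _ _)
        · rw [map_sub, h1, sub_self]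
        · rw [smul_sub, v.2.1 i, w.2.1 i, sub_self]
      exact sub_eq_zero.mp h2
    · rintro ⟨t, ht⟩
      have hex : ∀ i, ∃ v : V i, p • v = 0 ∧ f i v = (t i : QZ) := by
        intro i
        obtain ⟨v, hv, hfv⟩ := hsurj i (t i : QZ) (hprim _ _ ((hmemT _).1 (t i).2))
        refine ⟨v, ?_, hfv⟩
        apply hinj i _ ((pPrimary p (V i)).nsmul_mem hv p)
        rw [map_nsmul, hfv]
        exact (hmemT _).1 (t i).2
      choose v hv1 hv2 using hex
      refine ⟨⟨v, hv1, ?_⟩, ?_⟩
      · simp_rw [hv2]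
        rw [AddMonoidHom.mem_ker] at ht
        have := congrArg (Subtype.val) ht
        change ((∑ i, t i : T) : QZ) = 0 at this
        rwa [AddSubgroup.val_finsetSum] at this
      · apply Subtype.ext
        funext i
        exact Subtype.ext (hv2 i)
  rw [Nat.card_congr (Equiv.ofBijective Φ hΦ)]
  have h := T1_card_ker_sumHom I T
  rw [hcardT] at h
  have hpos : 0 < Fintype.card I := Fintype.card_pos
  obtain ⟨n, hn⟩ : ∃ n, Fintype.card I = n + 1 := ⟨Fintype.card I - 1, by omega⟩
  rw [hn, pow_succ] at h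
  rw [hn, Nat.add_sub_cancel]
  exact Nat.eq_of_mul_eq_mul_right hp.pos h

end Fermat.Agent.S55
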