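/-
S55 / block UNITS-T1, section T1-D (D1, D2): the local count
`|{(y_q) ∈ ∏_{q ∈ S} H^2_q(K_X)[p] : ∑ inv = 0}| = p^(#S_F - 1)`.
Owner: helper168.
-/
import Fermat.Agent.S55.Units.T1.SumInv
import Fermat.Agent.S55.Units.T1.LocalDecomp

set_option autoImplicit false

namespace Fermat.Agent.S55

section D

variable {S : Finset Nat.Primes} {p : ℕ}

private theorem T1_finite_locOrb (q : Nat.Primes) (X : Type) [MulAction GQ X] [Finite X] :
    Finite (LocOrb q X) := Quotient.finite _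

private theorem T1_nonempty_locOrb (q : Nat.Primes) (X : Type) [MulAction GQ X] [Nonempty X] :
    Nonempty (LocOrb q X) := ⟨Quotient.mk'' (ResSet.of (Classical.arbitrary X))⟩

/-- D2. -/
theorem nPl_pos (hS : S.Nonempty) (X : Type) [MulAction GQ X] [Finite X] [Nonempty X] :
    0 < nPl S X := by
  unfold nPl
  refine Finset.sum_pos (fun q _ => ?_) hS
  have := T1_finite_locOrb q X
  have := T1_nonempty_locOrb q X
  exact Nat.card_pos

/-- D1: `|{(y_q) ∈ ∏_{q ∈ S} H^2_q(K_X)[p] : ∑ inv = 0}| = p^(#S_F - 1)`. -/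
theorem card_local_ker (hp : p.Prime) (hS : S.Nonempty) (L : ∀ q, LocPkg p q) (X : Type)
    [MulAction GQ X] [Finite X] [Nonempty X] [SmoothSet lvlAll X] :
    Nat.card {y : ∀ q : ↥S, Hloc q.1 (IndMod X Kx) 2 //
      (∀ q, p • y q = 0) ∧ ∑ q : ↥S, invX (L q.1) X (y q) = 0} = p ^ (nPl S X - 1) := by
  classical
  have hfin : ∀ q : Nat.Primes, Finite (LocOrb q X) := fun q => T1_finite_locOrb q X
  let instF : ∀ q : Nat.Primes, Fintype (LocOrb q X) := fun q => Fintype.ofFinite _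
  let I : Type := Σ q : ↥S, LocOrb q.1 X
  have hne : Nonempty I := by
    obtain ⟨q, hq⟩ := hS
    obtain ⟨ω⟩ := T1_nonempty_locOrb q X
    exact ⟨⟨⟨q, hq⟩, ω⟩⟩
  let V : I → Type := fun i => HKY i.1.1 i.2.orbit 2
  let f : ∀ i : I, V i →+ QZ := fun i => invY i.1.1 i.2.orbit (L i.1.1).inv
  have hinj : ∀ i, ∀ v ∈ pPrimary p (V i), f i v = 0 → v = 0 := fun i =>
    (L i.1.1).L3inj i.2.orbit
  have hsurj : ∀ i, ∀ c ∈ pPrimary p QZ, ∃ v ∈ pPrimary p (V i), f i v = c := fun i =>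
    have : Nonempty i.2.orbit := (MulAction.orbitRel.Quotient.nonempty_orbit i.2).to_subtype
    (L i.1.1).L3surj i.2.orbit
  have hmain := card_ker_sum_inv hp V f hinj hsurj
  have hcard : Fintype.card I = nPl S X := by
    rw [Fintype.card_sigma, nPl, ← Finset.sum_coe_sort S fun q => Nat.card (LocOrb q X)]
    exact Finset.sum_congr rfl fun q _ => (Nat.card_eq_fintype_card).symm
  rw [hcard] at hmain
  rw [← hmain]
  let e1 : (∀ q : ↥S, Hloc q.1 (IndMod X Kx) 2) ≃
      (∀ (q : ↥S) (ω : LocOrb q.1 X), HKY q.1 ω.orbit 2) :=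
    Equiv.piCongrRight fun q => Equiv.ofBijective _ (locDecomp_bijective q.1 X 2)
  let e2 : (∀ (q : ↥S) (ω : LocOrb q.1 X), HKY q.1 ω.orbit 2) ≃ (∀ i : I, V i) :=
    (Equiv.piCurry fun (q : ↥S) (ω : LocOrb q.1 X) => HKY q.1 ω.orbit 2).symm
  have he : ∀ (y : ∀ q : ↥S, Hloc q.1 (IndMod X Kx) 2) (i : I),
      (e1.trans e2) y i = locDecomp i.1.1 X 2 i.2 (y i.1) := fun y i => rfl
  refine Nat.card_congr (Equiv.subtypeEquiv (e1.trans e2) fun y => ?_)
  refine and_congr ?_ ?_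
  · constructor
    · intro h i
      rw [he, ← map_nsmul, h, map_zero]
    · intro h q
      apply (locDecomp_bijective q.1 X 2).1
      funext ω
      have := h ⟨q, ω⟩
      rw [he, ← map_nsmul] at this
      simp only [this, map_zero]
  · have : ∑ i : I, f i ((e1.trans e2) y i) = ∑ q : ↥S, invX (L q.1) X (y q) := by
      rw [Fintype.sum_sigma]
      refine Finset.sum_congr rfl fun q _ => ?_
      rw [invX_eq_sum]
      rfl
    rw [this]

end D

end Fermat.Agent.S55
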