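/-
S55 / block UNITS-T1 : (U4) on the `p`-torsion, the form which is really used by (T1).
-/
import Fermat.Agent.S55.Units.T1.Defs

set_option autoImplicit false

namespace Fermat.Agent.S55

/-- (U4) on `p`-torsion: `H^2_S(E_X)[p] → ⨁_{q ∈ S} H^2_q(K_X)[p]` is injective with image the
kernel of the sum of the invariants. -/
structure U4Tors (S : Finset Nat.Primes) {p : ℕ} (L : ∀ q, LocPkg p q) (X : Type) [MulAction GQ X]
    [Finite X] : Prop where
  inj : ∀ x : Hsm (lvlS S) (IndMod X (ESx S)) 2, p • x = 0 →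
    (∀ q : ↥S, locE S X q.1 2 x = 0) → x = 0
  recip : ∀ x : Hsm (lvlS S) (IndMod X (ESx S)) 2, p • x = 0 →
    ∑ q : ↥S, invX (L q.1) X (locE S X q.1 2 x) = 0
  exist : ∀ y : (∀ q : ↥S, Hloc q.1 (IndMod X Kx) 2), (∀ q, p • y q = 0) →
    ∑ q : ↥S, invX (L q.1) X (y q) = 0 →
    ∃ x : Hsm (lvlS S) (IndMod X (ESx S)) 2, p • x = 0 ∧ ∀ q : ↥S, locE S X q.1 2 x = y q

theorem U4Pkg.toTors {S : Finset Nat.Primes} {p : ℕ} {L : ∀ q, LocPkg p q} {X : Type}
    [MulAction GQ X] [Finite X] (h : U4Pkg S L X) : U4Tors S L X where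
  inj x hx := h.inj x ⟨1, by rwa [pow_one]⟩
  recip x hx := h.recip x ⟨1, by rwa [pow_one]⟩
  exist y hy hs := by
    obtain ⟨x, hx, hxy⟩ := h.exist y (fun q => ⟨1, by rw [pow_one]; exact hy q⟩) hs
    refine ⟨x, ?_, hxy⟩
    refine h.inj _ ((pPrimary p _).nsmul_mem hx p) fun q => ?_
    rw [map_nsmul, hxy q, hy q]

end Fermat.Agent.S55
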