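/-
S55 / block UNITS-T1, section D3 : `|H^2_S(E_X)[p]| = p^(#S_F - 1)` from (U4) on `p`-torsion.
-/
import Fermat.Agent.S55.Units.T1.U4Defs
import Fermat.Agent.S55.Units.T1.LocalCount

set_option autoImplicit false

namespace Fermat.Agent.S55

variable {S : Finset Nat.Primes} {p : ℕ}

/-- D3: `|H^2_S(E_X)[p]| = p^(#S_F - 1)`. -/
theorem torsCard_H2E (hp : p.Prime) (hS : S.Nonempty) (L : ∀ q, LocPkg p q) (X : Type)
    [MulAction GQ X] [Finite X] [Nonempty X] [SmoothSet lvlAll X] (h : U4Tors S L X) :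
    torsCard p (Hsm (lvlS S) (IndMod X (ESx S)) 2) = p ^ (nPl S X - 1) := by
  rw [← card_local_ker hp hS L X]
  unfold torsCard
  let F : (nsmulAddMonoidHom (α := Hsm (lvlS S) (IndMod X (ESx S)) 2) p).ker →
      {y : ∀ q : ↥S, Hloc q.1 (IndMod X Kx) 2 //
        (∀ q, p • y q = 0) ∧ ∑ q : ↥S, invX (L q.1) X (y q) = 0} := fun x =>
    ⟨fun q => locE S X q.1 2 x.1, fun q => by
      have hx : p • x.1 = 0 := x.2
      rw [← map_nsmul, hx, map_zero], h.recip x.1 x.2⟩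
  refine Nat.card_congr (Equiv.ofBijective F ⟨?_, ?_⟩)
  · intro x x' hxx
    have h1 : ∀ q : ↥S, locE S X q.1 2 x.1 = locE S X q.1 2 x'.1 := fun q =>
      congrFun (congrArg Subtype.val hxx) q
    have hx : p • x.1 = 0 := x.2
    have hx' : p • x'.1 = 0 := x'.2
    have h2 := h.inj (x.1 - x'.1) (by rw [smul_sub, hx, hx', sub_zero])
      (fun q => by rw [map_sub, h1 q, sub_self])
    exact Subtype.ext (sub_eq_zero.1 h2)
  · rintro ⟨y, hy, hs⟩
    obtain ⟨x, hx, hxy⟩ := h.exist y hy hs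
    exact ⟨⟨x, hx⟩, Subtype.ext (funext hxy)⟩

end Fermat.Agent.S55
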