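/-
S55 / block UNITS-T1, section T1-E (owner helper288): the Kummer sequence
`0 → μ_p → E_S → E_S → 0` of the `S`-units of `ℚ_S` (`p ∈ S`).
-/
import Fermat.Agent.S55.Units.T1.Defs
import Fermat.Agent.S55.Units.Mods
import Fermat.Agent.S55.Units.Roots
import Fermat.Agent.S55.Coh.LES

set_option autoImplicit false

namespace Fermat.Agent.S55

section E

variable {S : Finset Nat.Primes} {p : ℕ} [Fact p.Prime]

instance instSmoothESx (S : Finset Nat.Primes) : Smooth (lvlS S) (ESx S) where
  exists_fix a := by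
    obtain ⟨N, hN, h⟩ := ((ESsub S).incl_mem a).1
    exact ⟨N, hN, fun n hn => (ESsub S).incl_injective (by rw [GSub.incl_smul]; exact h n hn)⟩

theorem exists_kummer (hpS : ExtCitation.pPrime p ∈ S) :
    ∃ (φ : Mu p →+[GQ] ESx S) (ψ : ESx S →+[GQ] ESx S), ShortExact φ ψ ∧ (∀ b, ψ b = p • b) ∧
      ∀ ζ, (ESsub S).incl (φ ζ) = (muSub p).incl ζ := by
  have hmem : ∀ ζ : Mu p, (muSub p).inclG ζ ∈ (ESsub S).toAddSubgroup := fun ζ => by
    rw [Units.mem_ESsub_iff]
    exact Units.isSUnit_of_pow_eq_one (ExtCitation.pPrime p) hpS _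
      ((Units.mem_muSub_iff p _).1 ((muSub p).incl_mem ζ))
  refine ⟨(ESsub S).codRestrict (muSub p).inclG hmem,
    { toFun := fun b => p • b
      map_smul' := fun g b => (smul_comm g p b).symm
      map_zero' := smul_zero p
      map_add' := fun a b => smul_add p a b }, ⟨?_, ?_, ?_⟩, fun b => rfl, fun ζ => rfl⟩
  · intro a b hab
    exact (muSub p).incl_injective (congrArg (ESsub S).incl hab)
  · intro b
    constructor
    · intro hb
      have hb' : p • b = 0 := hb
      have h1 : p • (ESsub S).incl b = 0 := by rw [← map_nsmul, hb', map_zero]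
      exact ⟨(muSub p).mkMod ((ESsub S).incl b) h1, (ESsub S).incl_injective rfl⟩
    · rintro ⟨a, rfl⟩
      apply (ESsub S).incl_injective
      show (ESsub S).incl (p • (ESsub S).codRestrict (muSub p).inclG hmem a) = (ESsub S).incl 0
      rw [map_nsmul, GSub.incl_codRestrict, map_zero]
      exact (muSub p).incl_mem a
  · intro x
    obtain ⟨y, hy⟩ := IsAlgClosed.exists_pow_nat_eq ((ESsub S).incl x).val
      (Fact.out : p.Prime).pos
    have hx0 : ((ESsub S).incl x).val ≠ 0 := (Additive.toMul ((ESsub S).incl x) : Qbˣ).ne_zero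
    have hy0 : y ≠ 0 := by
      rintro rfl
      rw [zero_pow (Fact.out : p.Prime).ne_zero] at hy
      exact hx0 hy.symm
    have hY : (Additive.ofMul (Units.mk0 y hy0) : Kx) ∈ (ESsub S).toAddSubgroup := by
      rw [Units.mem_ESsub_iff]
      refine Units.isSUnit_of_pow (ExtCitation.pPrime p) hpS y ?_
      rw [ExtCitation.pPrime_coe, hy]
      exact (Units.mem_ESsub_iff _).1 ((ESsub S).incl_mem x)
    refine ⟨(ESsub S).mkMod _ hY, (ESsub S).incl_injective ?_⟩
    show (ESsub S).incl (p • (ESsub S).mkMod _ hY) = (ESsub S).incl x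
    rw [map_nsmul, GSub.incl_mkMod]
    apply Additive.toMul.injective
    apply _root_.Units.ext
    show ((Units.mk0 y hy0 ^ p : Qbˣ) : Qb) = ((ESsub S).incl x).val
    rw [_root_.Units.val_pow_eq_pow_val, Units.val_mk0, hy]

end E

end Fermat.Agent.S55
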