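/-
S55 / block UNITS-T1, section T1-F : classes with coefficients killed by `m` are killed by `m`;
every open subgroup contains an open subgroup of index prime to `p` acting trivially on `μ_p`.
-/
import Fermat.Agent.S55.Units.T1.Defs
import Fermat.Agent.S55.Coh.Functor
import Fermat.Agent.S55.Coh.Complex
import Fermat.Agent.S55.Bridge.MuCoef

set_option autoImplicit false

namespace Fermat.Agent.S55

section F

/-- F1: classes with coefficients killed by `m` are killed by `m`. -/
theorem Hsm.nsmul_eq_zero_of_coeff {G : Type} [Group G] {𝓝 : LevelSys G} {A : Type}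
    [AddCommGroup A] [DistribMulAction G A] (m : ℕ) (hA : ∀ a : A, m • a = 0) (n : ℕ)
    (x : Hsm 𝓝 A n) : m • x = 0 := by
  rw [← Hsm.map_nsmul' (χ := (0 : A →+[G] A)) m (fun a => (hA a).symm) n x]
  exact Hsm.map_zero' (fun _ => rfl) n x

/-- F2: every open subgroup contains an open subgroup of index prime to `p` acting trivially on
`μ_p`. -/
theorem exists_actsTrivially_coprime {S : Finset Nat.Primes} {p : ℕ} [Fact p.Prime]
    (hpS : ExtCitation.pPrime p ∈ S) (U : Subgroup GQ) (hU : (lvlS S).IsOpen U) :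
    ∃ U', (lvlS S).IsOpen U' ∧ U' ≤ U ∧ ActsTrivially U' (Mu p) ∧ (U'.relIndex U).Coprime p := by
  have hp : p.Prime := Fact.out
  have : Fact (1 < p) := ⟨hp.one_lt⟩
  obtain ⟨ζ, -, hgen, -, hχ⟩ := Bridge.exists_generator_Mu p
  obtain ⟨F, hF, hn, hfix⟩ := Bridge.exists_level_of_cycloChar S hpS
  set K : Subgroup GQ := (ExtCitation.cycloChar p).ker with hK
  have hKopen : (lvlS S).IsOpen K :=
    ⟨_, ⟨F, hF, Bridge.isStableField_of_normal F hn, rfl⟩, fun s hs =>
      MonoidHom.mem_ker.2 (hfix s hs)⟩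
  refine ⟨U ⊓ K, hU.inf hKopen, inf_le_left, ?_, ?_⟩
  · intro u hu a
    obtain ⟨k, rfl⟩ := hgen a
    have h1 : u • ζ = ζ := by
      rw [hχ u, MonoidHom.mem_ker.1 hu.2]
      simp [ZMod.val_one]
    rw [smul_comm, h1]
  · have h1 : (U ⊓ K).relIndex U = K.relIndex U := Subgroup.inf_relIndex_left U K
    have h2 : K.relIndex U ∣ K.index := Subgroup.relIndex_dvd_index_of_normal K U
    have h3 : K.index ∣ p - 1 := by
      rw [hK, Subgroup.index_ker, ← ZMod.card_units p, ← Nat.card_eq_fintype_card]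
      exact Subgroup.card_subgroup_dvd_card _
    rw [h1]
    refine Nat.Coprime.coprime_dvd_left (h2.trans h3) ?_
    have h4 := hp.two_le
    exact ((Nat.Prime.coprime_iff_not_dvd hp).2
      (Nat.not_dvd_of_pos_of_lt (by omega) (by omega))).symm

end F

end Fermat.Agent.S55
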