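/-
S55 / block UNITS-T1 : ASSEMBLY of (T1) `H^3_S(μ_F) = 0` from (U4) on `p`-torsion, UNITS-CL, LOC,
LEMMA CHI2 and chain induction (helper139).
-/
import Fermat.Agent.S55.Units.T1.AbsCount
import Fermat.Agent.S55.Units.T1.KummerCount
import Fermat.Agent.S55.Units.T1.Kummer
import Fermat.Agent.S55.Units.T1.LocalCount
import Fermat.Agent.S55.Units.T1.H2E
import Fermat.Agent.S55.Units.T1.MuTriv
import Fermat.Agent.S55.Formal.Chi2.Cover
import Fermat.Agent.S55.Coh.Chain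
import Fermat.Agent.S55.Coh.Coset
import Fermat.Agent.S55.Bridge.MuCoef

set_option autoImplicit false

namespace Fermat.Agent.S55

variable {S : Finset Nat.Primes} {p : ℕ} [Fact p.Prime]

/-- The numerical input of CHI2 for `μ_X`, `X = GQ ⧸ U`. -/
theorem T1.chi2_mu (hpS : ExtCitation.pPrime p ∈ S) (L : ∀ q, LocPkg p q) (U : Subgroup GQ)
    (hU : (lvlS S).IsOpen U) (hUμ : ActsTrivially U (Mu p)) [Finite (GQ ⧸ U)]
    (h4 : U4Tors S L (GQ ⧸ U)) (hI : UnitInput S p (GQ ⧸ U)) :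
    Nat.card (Hsm (lvlS S) (IndMod (GQ ⧸ U) (Mu p)) 0) = p ∧
    Nat.card (Hsm (lvlS S) (IndMod (GQ ⧸ U) (Mu p)) 1) ≠ 0 ∧
    Nat.card (Hsm (lvlS S) (IndMod (GQ ⧸ U) (Mu p)) 2) ≠ 0 ∧
    Nat.card (Hsm (lvlS S) (IndMod (GQ ⧸ U) (Mu p)) 1) ^ 2 =
      (Nat.card (Hsm (lvlS S) (IndMod (GQ ⧸ U) (Mu p)) 0) *
        Nat.card (Hsm (lvlS S) (IndMod (GQ ⧸ U) (Mu p)) 2)) ^ 2 * p ^ Nat.card (GQ ⧸ U) := by
  have hp : p.Prime := Fact.out
  have hS : S.Nonempty := ⟨_, hpS⟩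
  have : SmoothSet (lvlS S) (GQ ⧸ U) := SmoothSet.quotient _ hU
  have : SmoothSet lvlAll (GQ ⧸ U) := by
    obtain ⟨N, hN, hle⟩ := hU
    obtain ⟨N', hN', hle'⟩ := lvlS_le_lvlAll S N hN
    exact SmoothSet.quotient _ ⟨N', hN', hle'.trans hle⟩
  obtain ⟨φ, ψ, hex, hψ, -⟩ := exists_kummer (S := S) (p := p) hpS
  have hexX := IndMod.shortExact_mapCoeff (GQ ⧸ U) hex
  have hψX : ∀ b, IndMod.mapCoeff (GQ ⧸ U) ψ b = p • b := by
    intro b
    ext x
    exact hψ (b x)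
  have c0 : Nat.card (Hsm (lvlS S) (IndMod (GQ ⧸ U) (Mu p)) 0) = p := by
    rw [Hsm.card_zero_coset U (Mu p) hUμ, Bridge.cardMu]
  have c1 := Hsm.card_succ_of_kummer (𝓝 := lvlS S) hexX p hψX 0
  have c2 := Hsm.card_succ_of_kummer (𝓝 := lvlS S) hexX p hψX 1
  have := hI.h1
  have ht := torsCard_eq_modCard p (Hsm (lvlS S) (IndMod (GQ ⧸ U) (ESx S)) 1)
  have ht0 := modCard_ne_zero p (Hsm (lvlS S) (IndMod (GQ ⧸ U) (ESx S)) 1)
  have h2 := torsCard_H2E hp hS L (GQ ⧸ U) h4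
  have hn := nPl_pos (S := S) hS (GQ ⧸ U)
  have h0 := hI.h0
  simp only [zero_add, Nat.reduceAdd] at c1 c2
  rw [c0, c1, c2, ht, h2]
  generalize modCard p (Hsm (lvlS S) (IndMod (GQ ⧸ U) (ESx S)) 0) = m at *
  generalize modCard p (Hsm (lvlS S) (IndMod (GQ ⧸ U) (ESx S)) 1) = t at *
  generalize nPl S (GQ ⧸ U) = n at *
  have hm0 : m ≠ 0 := by
    intro h
    rw [h] at h0
    have : p ^ (Nat.card (GQ ⧸ U) + 2 * n) ≠ 0 := pow_ne_zero _ hp.ne_zero
    exact this (by rw [← h0]; simp)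
  refine ⟨rfl, mul_ne_zero hm0 ht0, mul_ne_zero ht0 (pow_ne_zero _ hp.ne_zero), ?_⟩
  obtain ⟨k, rfl⟩ : ∃ k, n = k + 1 := ⟨n - 1, by omega⟩
  rw [mul_pow, h0, Nat.add_sub_cancel]
  ring

/-- Arithmetic: the CHI2 identity follows from the two formulas. -/
theorem T1.chi2_arith {p a0 a1 a2 b0 b1 b2 n n' : ℕ} (hn : n' = p * n)
    (ha : a1 ^ 2 = (a0 * a2) ^ 2 * p ^ n) (hb : b1 ^ 2 = (b0 * b2) ^ 2 * p ^ n') :
    b0 * b2 * a1 ^ p = b1 * (a0 * a2) ^ p := by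
  have h : (b0 * b2 * a1 ^ p) ^ 2 = (b1 * (a0 * a2) ^ p) ^ 2 := by
    have e1 : (b0 * b2 * a1 ^ p) ^ 2 = (b0 * b2) ^ 2 * (a1 ^ 2) ^ p := by ring
    have e2 : (b1 * (a0 * a2) ^ p) ^ 2 = b1 ^ 2 * ((a0 * a2) ^ 2) ^ p := by ring
    have e3 : p ^ (p * n) = (p ^ n) ^ p := by rw [← pow_mul, Nat.mul_comm]
    rw [e1, e2, ha, hb, hn, e3]
    ring
  exact Nat.pow_left_injective (n := 2) (by norm_num) h

/-- (T1) from (U4), UNITS-CL, LOC, CHI2 and chain induction. -/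
theorem T1.main (hpS : ExtCitation.pPrime p ∈ S) (L : ∀ q, LocPkg p q)
    (h4 : ∀ U : Subgroup GQ, (lvlS S).IsOpen U → ActsTrivially U (Mu p) →
      ∀ _ : Finite (GQ ⧸ U), U4Tors S L (GQ ⧸ U))
    (hI : ∀ U : Subgroup GQ, (lvlS S).IsOpen U → ActsTrivially U (Mu p) →
      UnitInput S p (GQ ⧸ U)) :
    ∀ U : Subgroup GQ, (lvlS S).IsOpen U → ActsTrivially U (Mu p) →
      ∀ x : Hsm (lvlS S) (IndMod (GQ ⧸ U) (Mu p)) 3, x = 0 := by
  have hp : p.Prime := Fact.out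
  have hcoef := Bridge.coefMu S hpS
  have := hcoef.smooth
  intro U hU _ x
  refine Hsm.eq_zero_of_chain (𝓝 := lvlS S) (A := Mu p) hp 2
    (fun V => ActsTrivially V (Mu p)) ?_ ?_ ?_ U hU x ?_
  · exact fun V hV => exists_actsTrivially_coprime hpS V hV
  · intro V V' hV _ hle u hu a
    exact hV u (hle hu) a
  · intro V V' hle hV' hVμ hnorm hidx y _ hy
    have hVo : (lvlS S).IsOpen V := hV'.mono hle
    have hV'μ : ActsTrivially V' (Mu p) := fun u hu a => hVμ u (hle hu) a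
    have f1 : Finite (GQ ⧸ V) := by
      have := hVo.finiteIndex
      exact Subgroup.finite_quotient_of_finiteIndex
    have f2 : Finite (GQ ⧸ V') := by
      have := hV'.finiteIndex
      exact Subgroup.finite_quotient_of_finiteIndex
    have s1 : SmoothSet (lvlS S) (GQ ⧸ V) := SmoothSet.quotient _ hVo
    have s2 : SmoothSet (lvlS S) (GQ ⧸ V') := SmoothSet.quotient _ hV'
    obtain ⟨s, -, hs, hcov⟩ := exists_cyclicCover_coset_prime hp hle hnorm hidx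
    obtain ⟨a0, a1, a2, a3⟩ := T1.chi2_mu hpS L V hVo hVμ (h4 V hVo hVμ f1) (hI V hVo hVμ)
    obtain ⟨b0, b1, b2, b3⟩ := T1.chi2_mu hpS L V' hV' hV'μ (h4 V' hV' hV'μ f2) (hI V' hV' hV'μ)
    have hcard : Nat.card (GQ ⧸ V') = p * Nat.card (GQ ⧸ V) := by
      have h1 : V'.index = V'.relIndex V * V.index := (Subgroup.relIndex_mul_index hle).symm
      rw [hidx] at h1
      exact h1
    have hinj := Chi2.pull_injective_of_chi2' (𝓝 := lvlS S) hp hcov (Mu p) hcoef.ptors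
      (by
        intro i hi
        interval_cases i
        · exact Nat.finite_of_card_ne_zero (by rw [a0]; exact hp.ne_zero)
        · exact Nat.finite_of_card_ne_zero a1
        · exact Nat.finite_of_card_ne_zero a2)
      (by
        intro i hi
        interval_cases i
        · exact Nat.finite_of_card_ne_zero (by rw [b0]; exact hp.ne_zero)
        · exact Nat.finite_of_card_ne_zero b1
        · exact Nat.finite_of_card_ne_zero b2)
      (T1.chi2_arith hcard a3 b3)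
    exact hinj (by rw [hy, map_zero])
  · -- every class is killed by `p`
    refine ⟨1, ?_⟩
    rw [pow_one]
    exact Hsm.nsmul_eq_zero_of_coeff p (fun f => by ext z; exact hcoef.ptors (f z)) 3 x

end Fermat.Agent.S55
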