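/-
S55 / block UNITS-T1, section T1-G (G1-G4): compatibilities of `locE`, `invX`, `brE`, `locMK`, `tU`,
and the injectivity of `ZMod p → ℚ/ℤ`.
-/
import Fermat.Agent.S55.Units.T1.U4Defs
import Fermat.Agent.S55.Units.Maps
import Fermat.Agent.S55.Coh.ResApi

set_option autoImplicit false

namespace Fermat.Agent.S55

open Fermat.Agent.S55.Units

section G

variable (S : Finset Nat.Primes) {p : ℕ} [Fact p.Prime]

/-- G1. -/
theorem zmodToQZ_injective (p : ℕ) (hp : 0 < p) : Function.Injective (zmodToQZ p) := by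
  have hpQ : (p : ℚ) ≠ 0 := by exact_mod_cast hp.ne'
  unfold zmodToQZ
  rw [ZMod.lift_injective]
  intro n hn
  change (zmultiplesHom QZ) (QZ.mk (1 / (p : ℚ))) n = 0 at hn
  rw [zmultiplesHom_apply, ← map_zsmul] at hn
  unfold QZ.mk at hn
  rw [QuotientAddGroup.mk'_apply, QuotientAddGroup.eq_zero_iff, AddMonoidHom.mem_range] at hn
  obtain ⟨m, hm⟩ := hn
  rw [ZMod.intCast_zmod_eq_zero_iff_dvd]
  refine ⟨m, ?_⟩
  have h3 : (n : ℚ) = ((p * m : ℤ) : ℚ) := by
    have h4 : (m : ℚ) = n • (1 / (p : ℚ)) := hm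
    rw [zsmul_eq_mul, mul_one_div, eq_div_iff hpQ] at h4
    push_cast
    rw [← h4, mul_comm]
  exact_mod_cast h3

/-- G2. -/
theorem T1.locA_brE (X : Type) [MulAction GQ X] (q : Nat.Primes) (n : ℕ)
    (x : Hsm (lvlS S) (IndMod X (ESx S)) n) :
    Units.locA q (IndMod X Kx) n (brE S X n x) = locE S X q n x := by
  induction x using Hsm.induction_on with
  | h z => rfl

/-- G3. -/
theorem T1.locE_map_incME (hpS : ExtCitation.pPrime p ∈ S) (X : Type) [MulAction GQ X]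
    (q : Nat.Primes) (n : ℕ) (x : Hsm (lvlS S) (IndMod X (Mu p)) n) :
    locE S X q n (Hsm.map (IndMod.mapCoeff X (incME hpS)) n x) =
      locMK q p X n (locS S _ q n x) := by
  induction x using Hsm.induction_on with
  | h z => rfl

omit [Fact p.Prime] in
/-- the sum over `X` commutes with the inclusion `μ_p ⊆ ℚ̄ˣ`. -/
theorem T1.sum_mapCoeff_incMK (U : Subgroup GQ) [Finite (GQ ⧸ U)] (q : Nat.Primes)
    (a : ResMod (ιv q) (IndMod (GQ ⧸ U) (Mu p))) :
    ResMod.map (ιv q) (IndMod.sum (GQ ⧸ U) Kx)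
      (ResMod.map (ιv q) (IndMod.mapCoeff (GQ ⧸ U) (incMK p)) a) =
    ResMod.map (ιv q) (muSub p).inclG (ResMod.map (ιv q) (IndMod.sum (GQ ⧸ U) (Mu p)) a) := by
  obtain ⟨a, rfl⟩ := (ResMod.toRes (ιv q)).surjective a
  rw [ResMod.map_toRes, ResMod.map_toRes, ResMod.map_toRes, ResMod.map_toRes]
  congr 1
  exact (IndMod.map_sum' (incMK p) a).symm

/-- G4. -/
theorem T1.invX_locMK (L : ∀ q, LocPkg p q) (U : Subgroup GQ) [Finite (GQ ⧸ U)] (q : Nat.Primes)
    (y : Hloc q (IndMod (GQ ⧸ U) (Mu p)) 2) :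
    invX (L q) (GQ ⧸ U) (locMK q p (GQ ⧸ U) 2 y) = zmodToQZ p (tU (fun q => (L q).t) U q y) := by
  unfold invX tU locMK
  rw [AddMonoidHom.comp_apply, AddMonoidHom.comp_apply, ← (L q).t_spec]
  congr 1
  rw [← Hsm.map_comp, ← Hsm.map_comp]
  exact DFunLike.congr_fun (Hsm.map_congr (fun a => T1.sum_mapCoeff_incMK U q a) 2) y

end G

end Fermat.Agent.S55
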