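/-
S55 / block UNITS-T1, section T1-G (G5-G7): the `p`-torsion of `H^2` of the units comes from
`H^2(μ_p)` (Kummer sequences), and `H^n_S(μ_X)` is killed by `p`.
-/
import Fermat.Agent.S55.Units.T1.U4Defs
import Fermat.Agent.S55.Units.Kummer
import Fermat.Agent.S55.Coh.LESExact
import Fermat.Agent.S55.Arith.Smooth

set_option autoImplicit false

namespace Fermat.Agent.S55

open Fermat.Agent.S55.Units

section G

variable (S : Finset Nat.Primes) {p : ℕ} [Fact p.Prime]

/-- G5: the `p`-torsion of `H^2_q(K_X)` comes from `H^2_q(μ_X)`. -/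
theorem T1.exists_locMK_eq (X : Type) [MulAction GQ X] [Finite X] [SmoothSet lvlAll X]
    (q : Nat.Primes) (y : Hloc q (IndMod X Kx) 2) (hy : p • y = 0) :
    ∃ y' : Hloc q (IndMod X (Mu p)) 2, locMK q p X 2 y' = y := by
  have hp : p.Prime := Fact.out
  have hse := ResMod.shortExact_map (ιv q) (IndMod.shortExact_mapCoeff X (Units.kummerK p hp.pos))
  have hmul : ∀ a : ResMod (ιv q) (IndMod X Kx),
      ResMod.map (ιv q) (IndMod.mapCoeff X (mulBy GQ Kx p)) a = p • a := by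
    intro a
    obtain ⟨a, rfl⟩ := (ResMod.toRes (ιv q)).surjective a
    rw [ResMod.map_toRes, ← map_nsmul]
    congr 1
  refine (Hsm.exact_map_map (𝓝 := lvlLoc q) hse 2 y).1 ?_
  rw [Hsm.map_nsmul' p hmul 2 y, hy]

/-- G6: the `p`-torsion of `H^2_S(E_X)` comes from `H^2_S(μ_X)`. -/
theorem T1.exists_map_incME_eq (hpS : ExtCitation.pPrime p ∈ S) (X : Type) [MulAction GQ X]
    [Finite X] [SmoothSet (lvlS S) X] (x : Hsm (lvlS S) (IndMod X (ESx S)) 2) (hx : p • x = 0) :
    ∃ x' : Hsm (lvlS S) (IndMod X (Mu p)) 2, Hsm.map (IndMod.mapCoeff X (incME hpS)) 2 x' = x := by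
  have hse := IndMod.shortExact_mapCoeff X (Units.kummerE hpS)
  have hmul : ∀ a : IndMod X (ESx S), IndMod.mapCoeff X (mulBy GQ (ESx S) p) a = p • a :=
    fun a => rfl
  refine (Hsm.exact_map_map (𝓝 := lvlS S) hse 2 x).1 ?_
  rw [Hsm.map_nsmul' p hmul 2 x, hx]

/-- G7. -/
theorem T1.nsmul_H_mu (X : Type) [MulAction GQ X] (n : ℕ) (x : Hsm (lvlS S) (IndMod X (Mu p)) n) :
    p • x = 0 := by
  have h0 : ∀ a : IndMod X (Mu p), p • a = 0 := by
    intro a
    ext x
    rw [IndMod.nsmul_apply, IndMod.zero_apply]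
    apply (muSub p).incl_injective
    rw [map_nsmul, map_zero]
    exact (muSub p).incl_mem (a x)
  rw [← Hsm.map_nsmul' (χ := mulBy GQ (IndMod X (Mu p)) p) p (fun _ => rfl) n x]
  exact Hsm.map_zero' (fun a => h0 a) n x

end G

end Fermat.Agent.S55
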