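/-
S55 / block UNITS-T1 : the adapter  (helper83's exports `T4₀_of`, `T4₁_of`, `brE_eq_zero` (U3),
`NeedL7`, `NeedB1`)  ⟹  `U4Tors`  (helper139).
-/
import Fermat.Agent.S55.Units.T1.U4Compat
import Fermat.Agent.S55.Units.T1.U4Kummer
import Fermat.Agent.S55.Units.T4
import Fermat.Agent.S55.Units.U3

set_option autoImplicit false

namespace Fermat.Agent.S55

open Units

section H

variable {S : Finset Nat.Primes} {p : ℕ} [Fact p.Prime]

theorem T1.u4Tors_of (hpS : ExtCitation.pPrime p ∈ S) (L : ∀ q, LocPkg p q) (h7 : NeedL7 S)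
    (h1 : NeedB1 p) (h3 : NeedB3 S p (fun q => (L q).t)) (h4 : NeedB4 S p (fun q => (L q).t))
    (U : Subgroup GQ) (hU : (lvlS S).IsOpen U) (hμ : ActsTrivially U (Mu p)) [Finite (GQ ⧸ U)] :
    U4Tors S L (GQ ⧸ U) := by
  have hp : p.Prime := Fact.out
  have s1 : SmoothSet (lvlS S) (GQ ⧸ U) := SmoothSet.quotient _ hU
  have s2 : SmoothSet lvlAll (GQ ⧸ U) := smoothSet_all S _
  have hUall : lvlAll.IsOpen U := by
    obtain ⟨N, hN, hle⟩ := hU
    obtain ⟨N', hN', hle'⟩ := lvlS_le_lvlAll S N hN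
    exact ⟨N', hN', hle'.trans hle⟩
  refine ⟨fun x hx h0 => ?_, fun x hx => ?_, fun y hy hs => ?_⟩
  · refine brE_eq_zero S hpS (GQ ⧸ U) x ⟨1, by rwa [pow_one]⟩ ?_
    refine h1 U hUall _ ⟨1, by rw [pow_one, ← map_nsmul, hx, map_zero]⟩ fun q => ?_
    by_cases hq : q ∈ S
    · rw [T1.locA_brE]
      exact h0 ⟨q, hq⟩
    · exact h7 q hq (GQ ⧸ U) x
  · obtain ⟨x', rfl⟩ := T1.exists_map_incME_eq S hpS (GQ ⧸ U) x hx
    simp only [T1.locE_map_incME, T1.invX_locMK]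
    rw [← map_sum, T4₀_of hpS _ h7 h3 U hU hμ x', map_zero]
  · choose y' hy' using fun q : ↥S => T1.exists_locMK_eq (p := p) (GQ ⧸ U) q.1 (y q) (hy q)
    have hs' : ∑ q : ↥S, tU (fun q => (L q).t) U q.1 (y' q) = 0 := by
      apply zmodToQZ_injective p hp.pos
      rw [map_sum, map_zero, ← hs]
      refine Finset.sum_congr rfl fun q _ => ?_
      rw [← hy' q, T1.invX_locMK]
    obtain ⟨x', hx'⟩ := T4₁_of hpS _ h1 h4 U hU hμ y' hs'
    refine ⟨Hsm.map (IndMod.mapCoeff (GQ ⧸ U) (incME hpS)) 2 x', ?_, fun q => ?_⟩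
    · rw [← map_nsmul, T1.nsmul_H_mu, map_zero]
    · rw [T1.locE_map_incME, hx' q, hy' q]

end H

end Fermat.Agent.S55
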