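/-
S55 / block UNITS-T1 : THE TOP EXPORT of the block: the field `T1` of `ArithInput`.
-/
import Fermat.Agent.S55.Units.T1.Main
import Fermat.Agent.S55.Units.T1.U4
import Fermat.Agent.S55.Units.AdaptL7
import Fermat.Agent.S55.Units.Cl.Export

set_option autoImplicit false

namespace Fermat.Agent.S55

variable {S : Finset Nat.Primes} {p : ℕ} [Fact p.Prime]

/-- **(T1)** `H^3_S(μ_F) = 0`, from LOC (`LocPkg`), BR (`NeedB1`, `NeedB3`, `NeedB4`), `NeedL7` and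
UNITS-CL (`UnitInput`). -/
theorem T1.top (hpS : ExtCitation.pPrime p ∈ S) (L : ∀ q, LocPkg p q) (h7 : Units.NeedL7 S)
    (h1 : Units.NeedB1 p) (h3 : Units.NeedB3 S p (fun q => (L q).t))
    (h4 : Units.NeedB4 S p (fun q => (L q).t))
    (hI : ∀ U : Subgroup GQ, (lvlS S).IsOpen U → ActsTrivially U (Mu p) →
      UnitInput S p (GQ ⧸ U)) :
    ∀ U : Subgroup GQ, (lvlS S).IsOpen U → ActsTrivially U (Mu p) →
      ∀ x : Hsm (lvlS S) (IndMod (GQ ⧸ U) (Mu p)) 3, x = 0 :=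
  T1.main hpS L (fun U hU hμ _ => T1.u4Tors_of hpS L h7 h1 h3 h4 U hU hμ) hI

/-- **(T1)** from LOC and BR only. -/
theorem T1.top' (hp2 : p ≠ 2) (hpS : ExtCitation.pPrime p ∈ S) (L : ∀ q, LocPkg p q)
    (h1 : Units.NeedB1 p) (h3 : Units.NeedB3 S p (fun q => (L q).t))
    (h4 : Units.NeedB4 S p (fun q => (L q).t)) :
    ∀ U : Subgroup GQ, (lvlS S).IsOpen U → ActsTrivially U (Mu p) →
      ∀ x : Hsm (lvlS S) (IndMod (GQ ⧸ U) (Mu p)) 3, x = 0 :=
  T1.top hpS L (Units.needL7_of_locPkg L S) h1 h3 h4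
    (fun U hU hμ => Units.Cl.unitInput S Fact.out hp2 U hU hμ)

end Fermat.Agent.S55
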